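/-
helper93 (P-SS2 / SS2-J7b LEVEL-KC/KT, row 1067): level change `L r → L` of the function-field
contracts (KC-FF) and (KT-FF), from the base change of norms (J7a, `NormBaseChangeStatement`).

Given the statement at level `(L r) q` and `f ∈ F_{L q}` with the four hypotheses, apply it to
`f' = lvlMap f ∈ F_{(L r) q}`: orders are multiplied by ramification indices, `lvlMap` commutes
with the coefficientwise Galois action, the two norms of `f'` are the images of the norms of
`f`; from `w' ^ m = f' ^ c` take the norm along `lvlMap`: `N(w') ^ m = f ^ (c d)`,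
`d = [F_{(L r) q} : F_{L q}]`.
-/
import Fermat.Agent.H52.SS.JInterfaces
import Fermat.Agent.H49.ES.GalHecke

set_option autoImplicit false
set_option linter.style.haveILetI false
set_option linter.unusedSectionVars false

noncomputable section

namespace Fermat.Agent.H93.SS2J

open AlgebraicCurve ModularCurve Fermat.Agent.H52.SS Fermat.Agent.H11.SS2

section Gen

variable {K F F' : Type*} [Field K] [Field F] [Field F'] [Algebra K F] [Algebra K F']

/-- The norm along `φ` of an element of the image. -/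
theorem lk_norm_map (φ : F →ₐ[K] F') (f : F) :
    ss2NormAlong φ (φ f) = f ^ finrankAlong K φ := by
  unfold ss2NormAlong finrankAlong
  letI : Algebra F F' := φ.toRingHom.toAlgebra
  exact Algebra.norm_algebraMap f

theorem lk_norm_pow (φ : F →ₐ[K] F') (w : F') (n : ℕ) :
    ss2NormAlong φ (w ^ n) = ss2NormAlong φ w ^ n := by
  unfold ss2NormAlong
  letI : Algebra F F' := φ.toRingHom.toAlgebra
  exact map_pow _ _ _

theorem lk_finrank_pos (φ : F →ₐ[K] F') (h : FiniteAlong K φ) : 0 < finrankAlong K φ := by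
  unfold finrankAlong
  letI := algebraAlong φ
  haveI : Module.Finite F F' := h
  exact Module.finrank_pos

/-- Compatibility of `ktQuot` with a homomorphism intertwining the operators. -/
theorem lk_ktQuot_map (ι : F →ₐ[K] F') (ψ : F → F) (ψ' : F' → F')
    (hψ : ∀ g, ι (ψ g) = ψ' (ι g)) (k : ℕ) (g : F) :
    ι (Fermat.Agent.H55.SS.ktQuot ψ k g) = Fermat.Agent.H55.SS.ktQuot ψ' k (ι g) := by
  unfold Fermat.Agent.H55.SS.ktQuot
  rw [map_div₀, map_pow, hψ]

theorem lk_ktTheta_map (ι : F →ₐ[K] F') (ψ : F → F) (ψ' : F' → F')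
    (hψ : ∀ g, ι (ψ g) = ψ' (ι g)) (Q : ℕ) (g : F) :
    ι (Fermat.Agent.H55.SS.ktTheta ψ Q g) = Fermat.Agent.H55.SS.ktTheta ψ' Q (ι g) := by
  unfold Fermat.Agent.H55.SS.ktTheta
  rw [lk_ktQuot_map ι ψ ψ' hψ, lk_ktQuot_map ι ψ ψ' hψ, lk_ktQuot_map ι ψ ψ' hψ,
    lk_ktQuot_map ι ψ ψ' hψ]

end Gen

section Cast

/-- Transport along an equality of levels preserves finiteness. -/
theorem lk_finite_castF {M M' : ℕ} (h : M = M') {F : Type*} [Field F]
    [Algebra (AlgebraicClosure ℚ) F] (φ : F →ₐ[AlgebraicClosure ℚ] modularFunctionFieldBar M)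
    (hφ : FiniteAlong (AlgebraicClosure ℚ) φ) :
    FiniteAlong (AlgebraicClosure ℚ) ((castF h).toAlgHom.comp φ) := by
  subst h
  have e : (castF (rfl : M = M)).toAlgHom.comp φ = φ := AlgHom.ext fun x => rfl
  rw [e]
  exact hφ

end Cast

section Level

variable (L q r : ℕ) [NeZero L] [NeZero q] [NeZero r]

theorem lk_finite_lvlMap (hr : r.Prime) :
    FiniteAlong (AlgebraicClosure ℚ) (lvlMap L q r) := by
  unfold lvlMap
  exact lk_finite_castF _ _
    (Fermat.Agent.H54.degeneracyFinite (AlgebraicClosure ℚ) (L * q) r hr).1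

/-- `lvlMap` commutes with the coefficientwise Galois action. -/
theorem lk_lvlMap_smul (σ : AlgebraicClosure ℚ ≃ₐ[ℚ] AlgebraicClosure ℚ)
    (f : modularFunctionFieldBar (L * q)) :
    arithmeticGalois (modularFunctionFieldFull (L * r * q)) σ • lvlMap L q r f
      = lvlMap L q r (arithmeticGalois (modularFunctionFieldFull (L * q)) σ • f) := by
  apply Subtype.ext
  rw [coe_arithmeticGalois_smul, coe_lvlMap, coe_lvlMap, coe_arithmeticGalois_smul]

theorem lk_lvlMap_smul_smul (σ : AlgebraicClosure ℚ ≃ₐ[ℚ] AlgebraicClosure ℚ)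
    (f : modularFunctionFieldBar (L * q)) :
    lvlMap L q r (arithmeticGalois (modularFunctionFieldFull (L * q)) σ •
        arithmeticGalois (modularFunctionFieldFull (L * q)) σ • f)
      = arithmeticGalois (modularFunctionFieldFull (L * r * q)) σ •
        arithmeticGalois (modularFunctionFieldFull (L * r * q)) σ • lvlMap L q r f := by
  rw [lk_lvlMap_smul, lk_lvlMap_smul]

end Level

/-- **(J7) LEVEL, (KC)**. -/
theorem levelKC (h : NormBaseChangeStatement) : LevelKCStatement := by
  intro L q r _ _ _ hq hr hqr hstat A hA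
  obtain ⟨c₀, hc₀, hmain⟩ := hstat A hA
  have hfin := lk_finite_lvlMap L q r hr
  have hd := lk_finrank_pos (lvlMap L q r) hfin
  have hint := Fermat.Agent.H49.isIntegral_of_finiteAlong _ hfin
  refine ⟨c₀ * finrankAlong (AlgebraicClosure ℚ) (lvlMap L q r), Nat.mul_pos hc₀ hd,
    fun m hm hqm f hf hord hin hα hβ => ?_⟩
  have hf' : lvlMap L q r f ≠ 0 := by
    intro h0
    exact hf ((lvlMap L q r).toRingHom.injective (h0.trans (map_zero _).symm))
  obtain ⟨w', hw'⟩ := hmain m hm hqm (lvlMap L q r f) hf'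
    (fun P' => by
      rw [Place.ord_restrictAlong (lvlMap L q r) hint P' f]
      exact Dvd.dvd.mul_left (hord _) _)
    (fun σ hσ => by
      obtain ⟨w, hw⟩ := hin σ hσ
      exact ⟨lvlMap L q r w, by rw [← map_pow, ← map_mul, hw, lk_lvlMap_smul]⟩)
    (by
      obtain ⟨h₀, hh₀⟩ := hα
      exact ⟨heckeAlphaBar (AlgebraicClosure ℚ) L r h₀, by
        rw [← map_pow, hh₀, (h L q r hq hr hqr f).1]⟩)
    (by
      obtain ⟨h₀, hh₀⟩ := hβ
      exact ⟨heckeAlphaBar (AlgebraicClosure ℚ) L r h₀, by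
        rw [← map_pow, hh₀, (h L q r hq hr hqr f).2]⟩)
  refine ⟨ss2NormAlong (lvlMap L q r) w', ?_⟩
  rw [← lk_norm_pow, hw', lk_norm_pow, lk_norm_map]
  exact (pow_mul' f c₀ _).symm

set_option maxHeartbeats 1000000 in
/-- **(J7) LEVEL, (KT)**. -/
theorem levelKT (h : NormBaseChangeStatement) : LevelKTStatement := by
  intro L q r _ _ _ hq hr hqr hstat A hA φ hφ
  obtain ⟨d₀, hd₀, hmain⟩ := hstat A hA φ hφ
  have hfin := lk_finite_lvlMap L q r hr
  have hd := lk_finrank_pos (lvlMap L q r) hfin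
  have hint := Fermat.Agent.H49.isIntegral_of_finiteAlong _ hfin
  refine ⟨d₀ * finrankAlong (AlgebraicClosure ℚ) (lvlMap L q r), Nat.mul_pos hd₀ hd,
    fun m hm hqm f hf hord hin hα hβ => ?_⟩
  have hf' : lvlMap L q r f ≠ 0 := by
    intro h0
    exact hf ((lvlMap L q r).toRingHom.injective (h0.trans (map_zero _).symm))
  obtain ⟨w', hw'⟩ := hmain m hm hqm (lvlMap L q r f) hf'
    (fun P' => by
      rw [Place.ord_restrictAlong (lvlMap L q r) hint P' f]
      exact Dvd.dvd.mul_left (hord _) _)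
    (fun σ hσ => by
      obtain ⟨w, hw⟩ := hin σ hσ
      exact ⟨lvlMap L q r w, by rw [← map_pow, ← map_mul, hw, lk_lvlMap_smul]⟩)
    (by
      obtain ⟨h₀, hh₀⟩ := hα
      exact ⟨heckeAlphaBar (AlgebraicClosure ℚ) L r h₀, by
        rw [← map_pow, hh₀, (h L q r hq hr hqr f).1]⟩)
    (by
      obtain ⟨h₀, hh₀⟩ := hβ
      exact ⟨heckeAlphaBar (AlgebraicClosure ℚ) L r h₀, by
        rw [← map_pow, hh₀, (h L q r hq hr hqr f).2]⟩)
  refine ⟨ss2NormAlong (lvlMap L q r) w', ?_⟩
  have hΘ : Fermat.Agent.H55.SS.ktTheta (fun g : modularFunctionFieldBar (L * r * q) =>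
        arithmeticGalois (modularFunctionFieldFull (L * r * q)) φ •
          arithmeticGalois (modularFunctionFieldFull (L * r * q)) φ • g) (q ^ 2)
        (lvlMap L q r f)
      = lvlMap L q r (Fermat.Agent.H55.SS.ktTheta (fun g : modularFunctionFieldBar (L * q) =>
        arithmeticGalois (modularFunctionFieldFull (L * q)) φ •
          arithmeticGalois (modularFunctionFieldFull (L * q)) φ • g) (q ^ 2) f) := by
    exact (lk_ktTheta_map (lvlMap L q r)
      (fun g : modularFunctionFieldBar (L * q) =>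
        arithmeticGalois (modularFunctionFieldFull (L * q)) φ •
          arithmeticGalois (modularFunctionFieldFull (L * q)) φ • g)
      (fun g : modularFunctionFieldBar (L * r * q) =>
        arithmeticGalois (modularFunctionFieldFull (L * r * q)) φ •
          arithmeticGalois (modularFunctionFieldFull (L * r * q)) φ • g)
      (fun g => lk_lvlMap_smul_smul L q r φ g) (q ^ 2) f).symm
  have hnorm : ss2NormAlong (lvlMap L q r) w' ^ m
      = ss2NormAlong (lvlMap L q r) (w' ^ m) := (lk_norm_pow _ _ _).symm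
  rw [hnorm, hw', hΘ, lk_norm_pow, lk_norm_map]
  exact (pow_mul' _ d₀ _).symm

end Fermat.Agent.H93.SS2J
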